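/-
S24 package A2 (Algebraic), backup copy by helper97: `F` is algebraic over `K(π)`; the monic
relation of an element of `R`.  Same statements as `Fermat/Agent/S24/Algebraic.lean` of the
coordinator's skeleton, in the namespace `Fermat.Agent.S24.H97`.
-/
import Fermat.Agent.S24.Defs

set_option autoImplicit false

open AlgebraicCurve

noncomputable section

namespace Fermat.Agent.S24.H97

variable {K F X : Type*} [Field K] [Field F] [Algebra K F] [Fintype X]
  {R : Subalgebra K F} {π : F}

/-- `∑_k (-1)^k e_k(s) t^(n-k) = 0` whenever `t ∈ s` (in a commutative ring). -/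
theorem sum_esymm_mul_pow_eq_zero {A : Type*} [CommRing A] (s : Multiset A) {t : A}
    (ht : t ∈ s) :
    ∑ k ∈ Finset.range (Multiset.card s + 1),
      (-1) ^ k * s.esymm k * t ^ (Multiset.card s - k) = 0 := by
  have h := congrArg (Polynomial.eval t) (Multiset.prod_X_sub_X_eq_sum_esymm s)
  have hz : Polynomial.eval t (s.map fun a => Polynomial.X - Polynomial.C a).prod = 0 := by
    rw [Polynomial.eval_multiset_prod]
    apply Multiset.prod_eq_zero
    rw [Multiset.mem_map]
    refine ⟨Polynomial.X - Polynomial.C t, Multiset.mem_map.mpr ⟨t, ht, rfl⟩, ?_⟩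
    simp
  rw [hz] at h
  rw [h, Polynomial.eval_finsetSum]
  refine Finset.sum_congr rfl fun k _ => ?_
  simp [mul_assoc]

/-- The coefficients of `∏_y (T - φ_y a)` come from `K(π)`, and `a` is a root. -/
theorem monic_relation [Nonempty X] (L : LocalData K F X R π) {a : F} (ha : a ∈ R) :
    ∃ ε : ℕ → F, (∀ k, ε k ∈ IntermediateField.adjoin K {π}) ∧
      (∀ k x, L.φ x (ε k) = (Finset.univ.val.map fun y => L.φ y a).esymm k) ∧
      ∑ k ∈ Finset.range (Fintype.card X + 1), (-1) ^ k * ε k * a ^ (Fintype.card X - k) = 0 := by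
  choose ε hε hφ using fun k : ℕ => L.sym a ha k
  refine ⟨ε, hε, hφ, ?_⟩
  obtain ⟨x₀⟩ := ‹Nonempty X›
  apply (L.φ x₀).injective
  rw [map_zero, map_sum]
  have hmem : L.φ x₀ a ∈ (Finset.univ.val.map fun y => L.φ y a) :=
    Multiset.mem_map.mpr ⟨x₀, Finset.mem_univ_val x₀, rfl⟩
  have hcard : Multiset.card (Finset.univ.val.map fun y => L.φ y a) = Fintype.card X := by
    simp
  have h := sum_esymm_mul_pow_eq_zero _ hmem
  rw [hcard] at h
  rw [← h]
  refine Finset.sum_congr rfl fun k _ => ?_
  simp [hφ]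

/-- Every element of `R` is integral over `K(π)`. -/
theorem isIntegral_of_mem [Nonempty X] (L : LocalData K F X R π) {a : F} (ha : a ∈ R) :
    IsIntegral (IntermediateField.adjoin K {π}) a := by
  obtain ⟨ε, hε, hφ, hsum⟩ := monic_relation L ha
  set n := Fintype.card X with hn
  obtain ⟨x₀⟩ := ‹Nonempty X›
  have hε0 : ε 0 = 1 := by
    apply (L.φ x₀).injective
    rw [hφ 0 x₀, map_one]
    simp [Multiset.esymm, Multiset.powersetCard_zero_left]
  -- the polynomial `∑_k (-1)^k ε_k T^(n-k)` over `K(π)`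
  let E : ℕ → IntermediateField.adjoin K {π} := fun k => ⟨ε k, hε k⟩
  let p : Polynomial (IntermediateField.adjoin K {π}) :=
    ∑ k ∈ Finset.range (n + 1), Polynomial.C ((-1) ^ k * E k) * Polynomial.X ^ (n - k)
  have hp0 : Polynomial.aeval a p = 0 := by
    rw [map_sum, ← hsum]
    refine Finset.sum_congr rfl fun k _ => ?_
    simp [E, Polynomial.aeval_C]
  have hpne : p ≠ 0 := by
    intro h0
    have hc := congrArg (fun q => Polynomial.coeff q n) h0
    simp only [p, Polynomial.finsetSum_coeff, Polynomial.coeff_C_mul, Polynomial.coeff_X_pow,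
      Polynomial.coeff_zero] at hc
    rw [Finset.sum_eq_single 0] at hc
    · -- coefficient of `T^n` is `ε 0 = 1`
      simp only [pow_zero, one_mul, Nat.sub_zero, if_true, mul_one] at hc
      have h1 : (E 0 : F) = 0 := by rw [hc]; rfl
      rw [show (E 0 : F) = ε 0 from rfl, hε0] at h1
      exact one_ne_zero h1
    · intro k hk hk0
      have : n ≠ n - k := by
        have := Finset.mem_range.mp hk
        omega
      simp [this]
    · intro h; exact absurd (Finset.mem_range.mpr (Nat.succ_pos n)) h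
  have halg : IsAlgebraic (IntermediateField.adjoin K {π}) a := ⟨p, hpne, hp0⟩
  exact halg.isIntegral

/-- `F` is algebraic over `K(π)`. -/
theorem isAlgebraic [Nonempty X] (L : LocalData K F X R π)
    (hR : ∀ f : F, ∃ a ∈ R, ∃ b ∈ R, b ≠ 0 ∧ f = a / b) :
    Algebra.IsAlgebraic (IntermediateField.adjoin K {π}) F := by
  refine ⟨fun f => ?_⟩
  obtain ⟨a, ha, b, hb, -, rfl⟩ := hR f
  have h1 := (isIntegral_of_mem L ha).isAlgebraic
  have h2 := (isIntegral_of_mem L hb).isAlgebraic
  rw [div_eq_mul_inv]
  exact h1.mul h2.inv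

end Fermat.Agent.S24.H97
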